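import Mathlib
import Fermat.Agent.LT.T6.Spec

/-!
# Row LT, tower T6, leaf T6.18g.e `CptGC305` (helper162): the core -- OFF-MAIN

Mathlib + `LT/T6/Spec.lean` (helper22, byte-identical copy) only.

`k` a field with a valuation in `ℤᵐ⁰`, `IsLocalField k q` (Spec: a uniformiser of valuation
`exp (-1)` and a finite full system of representatives of the residue field; completeness and
characteristic zero are NOT used).

* `exists_finset_approx_int162`: a finite set approximating every integer modulo `exp (-N)`;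
* `exists_finset_approx162`: the same for the ball of radius `exp B`;
* `exists_finset_approx_mat162`: the same for `2 × 2` matrices with entries in the ball;
* `val_inv_entry_le162`: entries of `g⁻¹` are bounded by `exp (2 B)` on the bounded set;
* `cptG_core162`: the bounded set `{g : entries ≤ exp B, |det g| ≥ exp (-B)}` of `GL₂(k)` is
  covered by finitely many cosets `x U(m)`.

No topology: a point of the bounded set which is close to a chosen point `x` of the same
set in all entries (distance `≤ exp (-(m + 2 B))`) lies in `x U(m)`, because the entries of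
`x⁻¹` and of `g⁻¹` are bounded by `exp (2 B)`.
-/

set_option autoImplicit false

open scoped Matrix

noncomputable section

namespace Fermat.Agent.LT.T6.H162

open Fermat.Agent.LT.T6

variable {k : Type} [Field k] [Valued k Γ₀]

/-! ## 1. Arithmetic in `ℤᵐ⁰` -/

/-- In `ℤᵐ⁰`: `x < 1` iff `x ≤ exp (-1)`. -/
theorem lt_one_iff_le_exp162 (x : Γ₀) : x < 1 ↔ x ≤ WithZero.exp (-1 : ℤ) := by
  rcases eq_or_ne x 0 with rfl | hx
  · simp
  · rw [← WithZero.exp_log hx, ← WithZero.exp_zero, WithZero.exp_lt_exp, WithZero.exp_le_exp]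
    omega

/-- The valuation of a power of a uniformiser. -/
theorem val_unif_pow162 {ϖ : k} (hϖ : Valued.v ϖ = WithZero.exp (-1 : ℤ)) (N : ℕ) :
    Valued.v (ϖ ^ N) = WithZero.exp (-(N : ℤ)) := by
  rw [map_pow, hϖ, ← WithZero.exp_nsmul]
  simp

/-- The valuation of an integral power of a uniformiser. -/
theorem val_unif_zpow162 {ϖ : k} (hϖ : Valued.v ϖ = WithZero.exp (-1 : ℤ)) (n : ℤ) :
    Valued.v (ϖ ^ n) = WithZero.exp (-n) := by
  rw [map_zpow₀, hϖ, ← WithZero.exp_zsmul]
  simp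

/-! ## 2. Finite approximation -/

/-- Every integer of `k` is approximated modulo `exp (-N)` by an element of a finite set. -/
theorem exists_finset_approx_int162 {q : ℕ} (hk : IsLocalField k q) (N : ℕ) :
    ∃ R : Finset k, ∀ z : k, Valued.v z ≤ 1 →
      ∃ r ∈ R, Valued.v (z - r) ≤ WithZero.exp (-(N : ℤ)) := by
  classical
  obtain ⟨ϖ, hϖ⟩ := hk.unif
  obtain ⟨T, -, -, -, hT⟩ := hk.residue
  induction N with
  | zero =>
    refine ⟨{0}, fun z hz => ⟨0, by simp, ?_⟩⟩
    simpa using hz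
  | succ N ih =>
    obtain ⟨R, hR⟩ := ih
    refine ⟨(R ×ˢ T).image (fun p => p.1 + ϖ ^ N * p.2), fun z hz => ?_⟩
    obtain ⟨r, hr, hzr⟩ := hR z hz
    have hϖN : Valued.v (ϖ ^ N) = WithZero.exp (-(N : ℤ)) := val_unif_pow162 hϖ N
    have hϖ0 : ϖ ^ N ≠ 0 := by
      intro h0
      rw [h0, map_zero] at hϖN
      exact WithZero.exp_ne_zero hϖN.symm
    have hw : Valued.v ((z - r) / ϖ ^ N) ≤ 1 := by
      rw [map_div₀, hϖN]
      exact div_le_one_of_le₀ hzr zero_le
    obtain ⟨t, ht, hwt⟩ := hT _ hw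
    refine ⟨r + ϖ ^ N * t,
      Finset.mem_image.mpr ⟨(r, t), Finset.mem_product.mpr ⟨hr, ht⟩, rfl⟩, ?_⟩
    have hEq : z - (r + ϖ ^ N * t) = ϖ ^ N * ((z - r) / ϖ ^ N - t) := by
      field_simp
      ring
    rw [hEq, map_mul, hϖN]
    have h1 : Valued.v ((z - r) / ϖ ^ N - t) ≤ WithZero.exp (-1 : ℤ) :=
      (lt_one_iff_le_exp162 _).mp hwt
    calc WithZero.exp (-(N : ℤ)) * Valued.v ((z - r) / ϖ ^ N - t)
        ≤ WithZero.exp (-(N : ℤ)) * WithZero.exp (-1 : ℤ) := mul_le_mul' le_rfl h1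
      _ = WithZero.exp (-((N + 1 : ℕ) : ℤ)) := by
          rw [← WithZero.exp_add]
          congr 1
          push_cast
          ring

/-- Every element of the ball of radius `exp B` is approximated modulo `exp (-N)` by an element
of a finite set. -/
theorem exists_finset_approx162 {q : ℕ} (hk : IsLocalField k q) (B N : ℤ) :
    ∃ R : Finset k, ∀ z : k, Valued.v z ≤ WithZero.exp B →
      ∃ r ∈ R, Valued.v (z - r) ≤ WithZero.exp (-N) := by
  classical
  obtain ⟨ϖ, hϖ⟩ := hk.unif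
  obtain ⟨R, hR⟩ := exists_finset_approx_int162 hk (N + B).toNat
  have hϖB : Valued.v (ϖ ^ B) = WithZero.exp (-B) := val_unif_zpow162 hϖ B
  have hϖB' : Valued.v (ϖ ^ (-B)) = WithZero.exp B := by
    simpa using val_unif_zpow162 hϖ (-B)
  have hϖ0 : ϖ ≠ 0 := by
    intro h0
    rw [h0, map_zero] at hϖ
    exact WithZero.exp_ne_zero hϖ.symm
  refine ⟨R.image (fun r => ϖ ^ (-B) * r), fun z hz => ?_⟩
  have hz1 : Valued.v (ϖ ^ B * z) ≤ 1 := by
    rw [map_mul, hϖB]
    calc WithZero.exp (-B) * Valued.v z ≤ WithZero.exp (-B) * WithZero.exp B :=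
          mul_le_mul' le_rfl hz
      _ = 1 := by rw [← WithZero.exp_add]; simp
  obtain ⟨r, hr, hzr⟩ := hR _ hz1
  refine ⟨ϖ ^ (-B) * r, Finset.mem_image.mpr ⟨r, hr, rfl⟩, ?_⟩
  have hEq : z - ϖ ^ (-B) * r = ϖ ^ (-B) * (ϖ ^ B * z - r) := by
    rw [mul_sub, ← mul_assoc, ← zpow_add₀ hϖ0]
    simp
  rw [hEq, map_mul, hϖB']
  calc WithZero.exp B * Valued.v (ϖ ^ B * z - r)
      ≤ WithZero.exp B * WithZero.exp (-(((N + B).toNat : ℕ) : ℤ)) := mul_le_mul' le_rfl hzr
    _ = WithZero.exp (B + -(((N + B).toNat : ℕ) : ℤ)) := by rw [WithZero.exp_add]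
    _ ≤ WithZero.exp (-N) := by
        rw [WithZero.exp_le_exp]
        have := Int.self_le_toNat (N + B)
        omega

/-- Matrices with entries in the ball of radius `exp B` are approximated modulo `exp (-N)`,
entry by entry, by the elements of a finite set of matrices. -/
theorem exists_finset_approx_mat162 {q : ℕ} (hk : IsLocalField k q) (B N : ℤ) :
    ∃ R : Finset (Matrix (Fin 2) (Fin 2) k), ∀ A : Matrix (Fin 2) (Fin 2) k,
      (∀ i j, Valued.v (A i j) ≤ WithZero.exp B) →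
      ∃ r ∈ R, ∀ i j, Valued.v (A i j - r i j) ≤ WithZero.exp (-N) := by
  classical
  obtain ⟨R, hR⟩ := exists_finset_approx162 hk B N
  refine ⟨(Fintype.piFinset (fun _ : Fin 2 => Fintype.piFinset (fun _ : Fin 2 => R))).image
    (fun f => Matrix.of f), fun A hA => ?_⟩
  choose f hfR hf using fun i j => hR (A i j) (hA i j)
  refine ⟨Matrix.of f, Finset.mem_image.mpr ⟨f, ?_, rfl⟩, fun i j => hf i j⟩
  rw [Fintype.mem_piFinset]
  intro i
  rw [Fintype.mem_piFinset]
  exact fun j => hfR i j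

/-! ## 3. Bounds for the inverse -/

/-- The entries of `g` are bounded by `entryMax g`. -/
theorem val_entry_le_entryMax162 (g : GL (Fin 2) k) (i j : Fin 2) :
    Valued.v ((g : Matrix (Fin 2) (Fin 2) k) i j) ≤ entryMax g :=
  Finset.le_sup' (fun p : Fin 2 × Fin 2 => Valued.v ((g : Matrix (Fin 2) (Fin 2) k) p.1 p.2))
    (Finset.mem_univ (i, j))

/-- On the bounded set the entries of the inverse are bounded by `exp (2 B)`. -/
theorem val_inv_entry_le162 {B : ℤ} (g : GL (Fin 2) k) (hg : entryMax g ≤ WithZero.exp B)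
    (hd : WithZero.exp (-B) ≤ Valued.v (g : Matrix (Fin 2) (Fin 2) k).det) (i j : Fin 2) :
    Valued.v (((g⁻¹ : GL (Fin 2) k) : Matrix (Fin 2) (Fin 2) k) i j) ≤ WithZero.exp (2 * B) := by
  have hE : ∀ i j, Valued.v ((g : Matrix (Fin 2) (Fin 2) k) i j) ≤ WithZero.exp B :=
    fun i j => (val_entry_le_entryMax162 g i j).trans hg
  have hdet0 : (g : Matrix (Fin 2) (Fin 2) k).det ≠ 0 := by
    intro h0
    rw [h0, map_zero] at hd
    exact absurd hd (not_le.mpr WithZero.exp_pos)
  have hdinv : Valued.v ((g : Matrix (Fin 2) (Fin 2) k).det)⁻¹ ≤ WithZero.exp B := by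
    rw [map_inv₀]
    have h1 : (Valued.v (g : Matrix (Fin 2) (Fin 2) k).det)⁻¹ ≤ (WithZero.exp (-B))⁻¹ :=
      inv_anti₀ WithZero.exp_pos hd
    simpa using h1
  have hinv : ((g⁻¹ : GL (Fin 2) k) : Matrix (Fin 2) (Fin 2) k)
      = ((g : Matrix (Fin 2) (Fin 2) k).det)⁻¹ • (g : Matrix (Fin 2) (Fin 2) k).adjugate := by
    rw [Matrix.coe_units_inv, Matrix.inv_def, Ring.inverse_eq_inv']
  have hadj : ∀ i j, Valued.v ((g : Matrix (Fin 2) (Fin 2) k).adjugate i j)
      ≤ WithZero.exp B := by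
    intro i j
    rw [Matrix.adjugate_fin_two]
    fin_cases i <;> fin_cases j <;> simp [Valuation.map_neg, hE]
  rw [hinv, Matrix.smul_apply, smul_eq_mul, map_mul, two_mul, WithZero.exp_add]
  exact mul_le_mul' hdinv (hadj i j)

/-- The ultrametric bound for an entry of a product of `2 × 2` matrices. -/
theorem val_mul_entry_le162 (A C : Matrix (Fin 2) (Fin 2) k) {a c : Γ₀}
    (hA : ∀ i j, Valued.v (A i j) ≤ a) (hC : ∀ i j, Valued.v (C i j) ≤ c) (i j : Fin 2) :
    Valued.v ((A * C) i j) ≤ a * c := by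
  rw [Matrix.mul_apply, Fin.sum_univ_two]
  refine (Valuation.map_add _ _ _).trans (max_le ?_ ?_)
  · rw [map_mul]; exact mul_le_mul' (hA _ _) (hC _ _)
  · rw [map_mul]; exact mul_le_mul' (hA _ _) (hC _ _)

/-! ## 4. Close points of the bounded set lie in the same coset of `U(m)` -/

/-- Two points of the bounded set which are close in all entries differ by an element of
`U(m)`. -/
theorem inU_of_close162 {B : ℤ} {m : ℕ} (x g : GL (Fin 2) k)
    (hx : entryMax x ≤ WithZero.exp B)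
    (hxd : WithZero.exp (-B) ≤ Valued.v (x : Matrix (Fin 2) (Fin 2) k).det)
    (hg : entryMax g ≤ WithZero.exp B)
    (hgd : WithZero.exp (-B) ≤ Valued.v (g : Matrix (Fin 2) (Fin 2) k).det)
    (hclose : ∀ i j, Valued.v ((g : Matrix (Fin 2) (Fin 2) k) i j
      - (x : Matrix (Fin 2) (Fin 2) k) i j) ≤ WithZero.exp (-((m : ℤ) + 2 * B))) :
    InU m (x⁻¹ * g) := by
  have hexp : WithZero.exp (2 * B) * WithZero.exp (-((m : ℤ) + 2 * B))
      = WithZero.exp (-(m : ℤ)) := by
    rw [← WithZero.exp_add]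
    congr 1
    ring
  have hclose' : ∀ i j, Valued.v ((x : Matrix (Fin 2) (Fin 2) k) i j
      - (g : Matrix (Fin 2) (Fin 2) k) i j) ≤ WithZero.exp (-((m : ℤ) + 2 * B)) := by
    intro i j
    rw [← Valuation.map_neg, neg_sub]
    exact hclose i j
  intro i j
  constructor
  · -- `x⁻¹ g - 1 = x⁻¹ (g - x)`
    have hEq : ((x⁻¹ * g : GL (Fin 2) k) : Matrix (Fin 2) (Fin 2) k) - 1
        = ((x⁻¹ : GL (Fin 2) k) : Matrix (Fin 2) (Fin 2) k)
          * ((g : Matrix (Fin 2) (Fin 2) k) - (x : Matrix (Fin 2) (Fin 2) k)) := by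
      rw [mul_sub, Units.val_mul]
      congr 1
      rw [← Units.val_mul, inv_mul_cancel, Units.val_one]
    have h1 := val_mul_entry_le162 ((x⁻¹ : GL (Fin 2) k) : Matrix (Fin 2) (Fin 2) k)
      ((g : Matrix (Fin 2) (Fin 2) k) - (x : Matrix (Fin 2) (Fin 2) k))
      (a := WithZero.exp (2 * B)) (c := WithZero.exp (-((m : ℤ) + 2 * B)))
      (fun i j => val_inv_entry_le162 x hx hxd i j)
      (fun i j => by rw [Matrix.sub_apply]; exact hclose i j) i j
    rw [← hEq, hexp, Matrix.sub_apply] at h1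
    exact h1
  · -- `(x⁻¹ g)⁻¹ - 1 = g⁻¹ (x - g)`
    have hEq : (((x⁻¹ * g)⁻¹ : GL (Fin 2) k) : Matrix (Fin 2) (Fin 2) k) - 1
        = ((g⁻¹ : GL (Fin 2) k) : Matrix (Fin 2) (Fin 2) k)
          * ((x : Matrix (Fin 2) (Fin 2) k) - (g : Matrix (Fin 2) (Fin 2) k)) := by
      rw [mul_inv_rev, inv_inv, mul_sub, Units.val_mul]
      congr 1
      rw [← Units.val_mul, inv_mul_cancel, Units.val_one]
    have h1 := val_mul_entry_le162 ((g⁻¹ : GL (Fin 2) k) : Matrix (Fin 2) (Fin 2) k)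
      ((x : Matrix (Fin 2) (Fin 2) k) - (g : Matrix (Fin 2) (Fin 2) k))
      (a := WithZero.exp (2 * B)) (c := WithZero.exp (-((m : ℤ) + 2 * B)))
      (fun i j => val_inv_entry_le162 g hg hgd i j)
      (fun i j => by rw [Matrix.sub_apply]; exact hclose' i j) i j
    rw [← hEq, hexp, Matrix.sub_apply] at h1
    exact h1

/-! ## 5. The covering -/

/-- **The core of `CptGC305`.**  The bounded set `{g : entries ≤ exp B, |det g| ≥ exp (-B)}` of
`GL₂(k)` is covered by finitely many cosets `x U(m)`; the centres `x` can be taken in the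
bounded set. -/
theorem cptG_core162 {q : ℕ} (hk : IsLocalField k q) (B : ℤ) (m : ℕ) :
    ∃ F : Finset (GL (Fin 2) k),
      (∀ x ∈ F, entryMax x ≤ WithZero.exp B ∧
        WithZero.exp (-B) ≤ Valued.v (x : Matrix (Fin 2) (Fin 2) k).det) ∧
      ∀ g : GL (Fin 2) k, entryMax g ≤ WithZero.exp B →
        WithZero.exp (-B) ≤ Valued.v (g : Matrix (Fin 2) (Fin 2) k).det →
        ∃ x ∈ F, ∃ u : GL (Fin 2) k, InU m u ∧ g = x * u := by
  classical
  obtain ⟨R, hR⟩ := exists_finset_approx_mat162 hk B ((m : ℤ) + 2 * B)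
  -- the points of the bounded set near `r`
  let P : Matrix (Fin 2) (Fin 2) k → GL (Fin 2) k → Prop := fun r g =>
    entryMax g ≤ WithZero.exp B ∧
      WithZero.exp (-B) ≤ Valued.v (g : Matrix (Fin 2) (Fin 2) k).det ∧
      ∀ i j, Valued.v ((g : Matrix (Fin 2) (Fin 2) k) i j - r i j)
        ≤ WithZero.exp (-((m : ℤ) + 2 * B))
  let c : Matrix (Fin 2) (Fin 2) k → GL (Fin 2) k := fun r =>
    if h : ∃ g, P r g then h.choose else 1
  have hc : ∀ r, (∃ g, P r g) → P r (c r) := by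
    intro r h
    simp only [c, dif_pos h]
    exact h.choose_spec
  refine ⟨(R.filter (fun r => ∃ g, P r g)).image c, ?_, ?_⟩
  · intro x hx
    obtain ⟨r, hr, rfl⟩ := Finset.mem_image.mp hx
    have := hc r (Finset.mem_filter.mp hr).2
    exact ⟨this.1, this.2.1⟩
  · intro g hg hgd
    obtain ⟨r, hr, hgr⟩ := hR (g : Matrix (Fin 2) (Fin 2) k)
      (fun i j => (val_entry_le_entryMax162 g i j).trans hg)
    have hex : ∃ g, P r g := ⟨g, hg, hgd, hgr⟩
    have hcr := hc r hex
    refine ⟨c r, Finset.mem_image.mpr ⟨r, Finset.mem_filter.mpr ⟨hr, hex⟩, rfl⟩,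
      (c r)⁻¹ * g, ?_, by rw [mul_inv_cancel_left]⟩
    refine inU_of_close162 (c r) g hcr.1 hcr.2.1 hg hgd (fun i j => ?_)
    have h1 : (g : Matrix (Fin 2) (Fin 2) k) i j - ((c r : GL (Fin 2) k) :
        Matrix (Fin 2) (Fin 2) k) i j
        = ((g : Matrix (Fin 2) (Fin 2) k) i j - r i j)
          - (((c r : GL (Fin 2) k) : Matrix (Fin 2) (Fin 2) k) i j - r i j) := by ring
    rw [h1]
    exact (Valuation.map_sub _ _ _).trans (max_le (hgr i j) (hcr.2.2 i j))

end Fermat.Agent.LT.T6.H162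

end
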