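import Mathlib
import Fermat.Agent.LT.T6.H305.CenNormSpec
import Fermat.Agent.LT.T6.H162.CptGCore

/-!
# Row LT, tower T6, leaf T6.18g.e `CptGC305` (helper162) -- OFF-MAIN

`cptGC162 : Fermat.Agent.LT.T6.H305.CptGC305`, VERBATIM the Prop of
`LT/T6/H305/CenNormSpec.lean` (helper305, sha256 f00c68bd75d61a4e; on `T6/Spec.lean` v3
8c5f2ae7a3cd8a6e and `T6/H783/BadSpec.lean` c79abacc91498d35, byte-identical copies).

UNCONDITIONAL.  The proof is `cptG_core162` of `CptGCore.lean` (Mathlib + `T6/Spec.lean` only):
finite approximation of the entries modulo `exp (-(m + 2 B))` by the residue system of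
`IsLocalField`, and the bound `exp (2 B)` for the entries of the inverse on the bounded set.
The centres of the cosets can be taken in the bounded set (`cptGC_centres162`).
-/

set_option autoImplicit false

open scoped Matrix

noncomputable section

namespace Fermat.Agent.LT.T6.H162

open Fermat.Agent.LT.T6 Fermat.Agent.LT.T6.H305

/-- **T6.18g.e `CptGC305`** (bounded sets of `GL₂(k)` are covered by finitely many cosets
`x U(m)`), VERBATIM. -/
theorem cptGC162 : CptGC305 := by
  intro k _ _ q hk B m
  obtain ⟨F, -, hF⟩ := cptG_core162 hk B m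
  exact ⟨F, hF⟩

/-- The same with centres in the bounded set. -/
theorem cptGC_centres162 (k : Type) [Field k] [Valued k Γ₀] (q : ℕ) (hk : IsLocalField k q)
    (B : ℤ) (m : ℕ) :
    ∃ F : Finset (GL (Fin 2) k),
      (∀ x ∈ F, entryMax x ≤ WithZero.exp B ∧
        WithZero.exp (-B) ≤ Valued.v (x : Matrix (Fin 2) (Fin 2) k).det) ∧
      ∀ g : GL (Fin 2) k, entryMax g ≤ WithZero.exp B →
        WithZero.exp (-B) ≤ Valued.v (g : Matrix (Fin 2) (Fin 2) k).det →
        ∃ x ∈ F, ∃ u : GL (Fin 2) k, InU m u ∧ g = x * u :=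
  cptG_core162 hk B m

end Fermat.Agent.LT.T6.H162

end
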