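import Mathlib
import Fermat.Agent.LT.T6.H830.HCSpec

/-!
# Row LT, tower T6, leaf T6.29.R3 `SphAvgOfC` (helper162) -- OFF-MAIN

`sphAvgOfC162 : Fermat.Agent.LT.T6.H830.SphAvgOfC`, VERBATIM the Prop of
`LT/T6/H830/HCSpec.lean` (helper830, sha256 c3e7d846d59fc805; on `T6/SpecArch.lean`
003240b217cb0def, byte-identical copies): `CartanRC → SphAvgAtC → SphAvgRC`.

Reusable (all for arbitrary `g : GL₂(ℝ)`):
* `rotR_mul_rotR162`, `rotR_add_two_pi162`;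
* `holPart_rotR_mul162`, `holPart_mul_rotR162`, `holPart_bR162`;
* `rhoR_eq162` (formula in the entries), `rhoR_rotR_mul162`, `rhoR_mul_rotR162`, `rhoR_bR162`;
* `eisR_mul_rotR162` (`E(g k_β) = e^{inβ} E(g)`), `eisR_of_smul162` (`E(λ g) = E(g)`, `λ > 0`);
* `wtPhase_cartan162`, `rhoR_cartan162`.
-/

set_option autoImplicit false

open scoped Matrix
open MeasureTheory

noncomputable section

namespace Fermat.Agent.LT.T6.H162

open Fermat.Agent.LT.T6 Fermat.Agent.LT.T6.H830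

/-! ## 1. Entries -/

theorem rotR_mul_apply162 (α : ℝ) (g : GL (Fin 2) ℝ) (j : Fin 2) :
    ((rotR α * g : GL (Fin 2) ℝ) : Matrix (Fin 2) (Fin 2) ℝ) 0 j
        = Real.cos α * (g : Matrix (Fin 2) (Fin 2) ℝ) 0 j
          - Real.sin α * (g : Matrix (Fin 2) (Fin 2) ℝ) 1 j ∧
      ((rotR α * g : GL (Fin 2) ℝ) : Matrix (Fin 2) (Fin 2) ℝ) 1 j
        = Real.sin α * (g : Matrix (Fin 2) (Fin 2) ℝ) 0 j
          + Real.cos α * (g : Matrix (Fin 2) (Fin 2) ℝ) 1 j := by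
  rw [Units.val_mul, coe_rotR830]
  constructor
  · rw [Matrix.mul_apply, Fin.sum_univ_two]
    simp
    ring
  · rw [Matrix.mul_apply, Fin.sum_univ_two]
    simp

theorem mul_rotR_apply162 (g : GL (Fin 2) ℝ) (β : ℝ) (i : Fin 2) :
    ((g * rotR β : GL (Fin 2) ℝ) : Matrix (Fin 2) (Fin 2) ℝ) i 0
        = (g : Matrix (Fin 2) (Fin 2) ℝ) i 0 * Real.cos β
          + (g : Matrix (Fin 2) (Fin 2) ℝ) i 1 * Real.sin β ∧
      ((g * rotR β : GL (Fin 2) ℝ) : Matrix (Fin 2) (Fin 2) ℝ) i 1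
        = -((g : Matrix (Fin 2) (Fin 2) ℝ) i 0 * Real.sin β)
          + (g : Matrix (Fin 2) (Fin 2) ℝ) i 1 * Real.cos β := by
  rw [Units.val_mul, coe_rotR830]
  constructor
  · rw [Matrix.mul_apply, Fin.sum_univ_two]
    simp
  · rw [Matrix.mul_apply, Fin.sum_univ_two]
    simp

theorem det_rotR162 (α : ℝ) : ((rotR α : GL (Fin 2) ℝ) : Matrix (Fin 2) (Fin 2) ℝ).det = 1 := by
  rw [coe_rotR830, Matrix.det_fin_two_of]
  have h := Real.cos_sq_add_sin_sq α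
  linear_combination h

theorem det_rotR_mul162 (α : ℝ) (g : GL (Fin 2) ℝ) :
    ((rotR α * g : GL (Fin 2) ℝ) : Matrix (Fin 2) (Fin 2) ℝ).det
      = (g : Matrix (Fin 2) (Fin 2) ℝ).det := by
  rw [Units.val_mul, Matrix.det_mul, det_rotR162, one_mul]

theorem det_mul_rotR162 (g : GL (Fin 2) ℝ) (β : ℝ) :
    ((g * rotR β : GL (Fin 2) ℝ) : Matrix (Fin 2) (Fin 2) ℝ).det
      = (g : Matrix (Fin 2) (Fin 2) ℝ).det := by
  rw [Units.val_mul, Matrix.det_mul, det_rotR162, mul_one]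

theorem rotR_mul_rotR162 (θ α : ℝ) : rotR θ * rotR α = rotR (θ + α) := by
  apply Units.ext
  ext i j
  have h := rotR_mul_apply162 θ (rotR α) j
  fin_cases i
  · show ((rotR θ * rotR α : GL (Fin 2) ℝ) : Matrix (Fin 2) (Fin 2) ℝ) 0 j = _
    rw [h.1, coe_rotR830, coe_rotR830]
    fin_cases j
    · simp [Real.cos_add]
    · simp [Real.sin_add]; ring
  · show ((rotR θ * rotR α : GL (Fin 2) ℝ) : Matrix (Fin 2) (Fin 2) ℝ) 1 j = _
    rw [h.2, coe_rotR830, coe_rotR830]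
    fin_cases j
    · simp [Real.sin_add]
    · simp [Real.cos_add]; ring

theorem rotR_add_two_pi162 (θ : ℝ) : rotR (θ + 2 * Real.pi) = rotR θ := by
  apply Units.ext
  rw [coe_rotR830, coe_rotR830, Real.cos_add_two_pi, Real.sin_add_two_pi]

/-! ## 2. The holomorphic part -/

theorem holPart_rotR_mul162 (α : ℝ) (g : GL (Fin 2) ℝ) :
    holPart (rotR α * g) = Complex.exp ((α : ℂ) * Complex.I) * holPart g := by
  unfold holPart
  rw [(rotR_mul_apply162 α g 0).1, (rotR_mul_apply162 α g 0).2, (rotR_mul_apply162 α g 1).1,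
    (rotR_mul_apply162 α g 1).2, Complex.exp_mul_I, ← Complex.ofReal_cos, ← Complex.ofReal_sin]
  apply Complex.ext
  · simp
    ring
  · simp
    ring

theorem holPart_mul_rotR162 (g : GL (Fin 2) ℝ) (β : ℝ) :
    holPart (g * rotR β) = holPart g * Complex.exp ((β : ℂ) * Complex.I) := by
  unfold holPart
  rw [(mul_rotR_apply162 g β 0).1, (mul_rotR_apply162 g β 0).2, (mul_rotR_apply162 g β 1).1,
    (mul_rotR_apply162 g β 1).2, Complex.exp_mul_I, ← Complex.ofReal_cos, ← Complex.ofReal_sin]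
  apply Complex.ext
  · simp
    ring
  · simp
    ring

theorem holPart_bR162 (ζ t : ℝ) :
    holPart (bR ζ t 0) = ((Real.exp (ζ / 2) * Real.cosh (t / 2) : ℝ) : ℂ) := by
  unfold holPart
  rw [coe_bR830]
  have h1 : Real.exp ((ζ + t) / 2) = Real.exp (ζ / 2) * Real.exp (t / 2) := by
    rw [← Real.exp_add]; congr 1; ring
  have h2 : Real.exp ((ζ - t) / 2) = Real.exp (ζ / 2) * Real.exp (-(t / 2)) := by
    rw [← Real.exp_add]; congr 1; ring
  simp only [Matrix.of_apply, Matrix.cons_val', Matrix.cons_val_zero, Matrix.cons_val_one,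
    Matrix.cons_val_fin_one, mul_zero, sub_zero]
  have h : Real.exp ((ζ + t) / 2) + Real.exp ((ζ - t) / 2)
      = 2 * (Real.exp (ζ / 2) * Real.cosh (t / 2)) := by
    rw [Real.cosh_eq, h1, h2]
    ring
  rw [h]
  push_cast
  ring

/-! ## 3. The radial coordinate -/

theorem rhoR_eq162 (g : GL (Fin 2) ℝ) :
    rhoR g = ((g : Matrix (Fin 2) (Fin 2) ℝ) 0 0 ^ 2 + (g : Matrix (Fin 2) (Fin 2) ℝ) 0 1 ^ 2
        + (g : Matrix (Fin 2) (Fin 2) ℝ) 1 0 ^ 2 + (g : Matrix (Fin 2) (Fin 2) ℝ) 1 1 ^ 2)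
      / (2 * |(g : Matrix (Fin 2) (Fin 2) ℝ).det|) := by
  unfold rhoR
  congr 1
  rw [Matrix.trace_fin_two, Matrix.mul_apply, Matrix.mul_apply, Fin.sum_univ_two,
    Fin.sum_univ_two]
  simp only [Matrix.transpose_apply]
  ring

theorem rhoR_rotR_mul162 (α : ℝ) (g : GL (Fin 2) ℝ) : rhoR (rotR α * g) = rhoR g := by
  rw [rhoR_eq162, rhoR_eq162, det_rotR_mul162, (rotR_mul_apply162 α g 0).1,
    (rotR_mul_apply162 α g 0).2, (rotR_mul_apply162 α g 1).1, (rotR_mul_apply162 α g 1).2]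
  congr 1
  have h := Real.cos_sq_add_sin_sq α
  linear_combination ((g : Matrix (Fin 2) (Fin 2) ℝ) 0 0 ^ 2
    + (g : Matrix (Fin 2) (Fin 2) ℝ) 0 1 ^ 2 + (g : Matrix (Fin 2) (Fin 2) ℝ) 1 0 ^ 2
    + (g : Matrix (Fin 2) (Fin 2) ℝ) 1 1 ^ 2) * h

theorem rhoR_mul_rotR162 (g : GL (Fin 2) ℝ) (β : ℝ) : rhoR (g * rotR β) = rhoR g := by
  rw [rhoR_eq162, rhoR_eq162, det_mul_rotR162, (mul_rotR_apply162 g β 0).1,
    (mul_rotR_apply162 g β 0).2, (mul_rotR_apply162 g β 1).1, (mul_rotR_apply162 g β 1).2]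
  congr 1
  have h := Real.cos_sq_add_sin_sq β
  linear_combination ((g : Matrix (Fin 2) (Fin 2) ℝ) 0 0 ^ 2
    + (g : Matrix (Fin 2) (Fin 2) ℝ) 0 1 ^ 2 + (g : Matrix (Fin 2) (Fin 2) ℝ) 1 0 ^ 2
    + (g : Matrix (Fin 2) (Fin 2) ℝ) 1 1 ^ 2) * h

theorem rhoR_bR162 (ζ t : ℝ) : rhoR (bR ζ t 0) = Real.cosh t := by
  rw [rhoR_eq162, coe_bR830, Matrix.det_fin_two_of]
  simp only [Matrix.of_apply, Matrix.cons_val', Matrix.cons_val_zero, Matrix.cons_val_one,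
    Matrix.cons_val_fin_one, mul_zero, sub_zero]
  have h1 : Real.exp ((ζ + t) / 2) ^ 2 = Real.exp ζ * Real.exp t := by
    rw [← Real.exp_add, sq, ← Real.exp_add]; congr 1; ring
  have h2 : Real.exp ((ζ - t) / 2) ^ 2 = Real.exp ζ * Real.exp (-t) := by
    rw [← Real.exp_add, sq, ← Real.exp_add]; congr 1; ring
  have h3 : Real.exp ((ζ + t) / 2) * Real.exp ((ζ - t) / 2) = Real.exp ζ := by
    rw [← Real.exp_add]; congr 1; ring
  rw [h3, abs_of_pos (Real.exp_pos ζ), Real.cosh_eq]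
  have hζ : Real.exp ζ ≠ 0 := Real.exp_ne_zero ζ
  field_simp
  rw [h1, h2]
  ring

/-! ## 4. The function `E` -/

theorem eisR_mul_rotR162 (n : ℤ) (s : ℂ) (g : GL (Fin 2) ℝ) (β : ℝ) :
    eisR n s (g * rotR β) = Complex.exp ((n : ℂ) * (β : ℂ) * Complex.I) * eisR n s g := by
  unfold eisR
  rw [det_mul_rotR162, (mul_rotR_apply162 g β 1).1, (mul_rotR_apply162 g β 1).2]
  set c := (g : Matrix (Fin 2) (Fin 2) ℝ) 1 0 with hc
  set d := (g : Matrix (Fin 2) (Fin 2) ℝ) 1 1 with hd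
  have hsq : (c * Real.cos β + d * Real.sin β) ^ 2 + (-(c * Real.sin β) + d * Real.cos β) ^ 2
      = c ^ 2 + d ^ 2 := by
    have h := Real.cos_sq_add_sin_sq β
    linear_combination (c ^ 2 + d ^ 2) * h
  rw [hsq]
  have hnum : (((-(c * Real.sin β) + d * Real.cos β : ℝ) : ℂ)
      + ((c * Real.cos β + d * Real.sin β : ℝ) : ℂ) * Complex.I)
      = (((d : ℝ) : ℂ) + ((c : ℝ) : ℂ) * Complex.I) * Complex.exp ((β : ℂ) * Complex.I) := by
    rw [Complex.exp_mul_I, ← Complex.ofReal_cos, ← Complex.ofReal_sin]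
    apply Complex.ext
    · simp
      ring
    · simp
      ring
  rw [hnum, mul_div_right_comm, mul_zpow, ← Complex.exp_int_mul]
  have : ((n : ℂ) * ((β : ℂ) * Complex.I)) = (n : ℂ) * (β : ℂ) * Complex.I := by ring
  rw [this]
  ring

theorem eisR_of_smul162 (n : ℤ) (s : ℂ) (g g' : GL (Fin 2) ℝ) (lam : ℝ) (hlam : 0 < lam)
    (h : ∀ i j, (g' : Matrix (Fin 2) (Fin 2) ℝ) i j = lam * (g : Matrix (Fin 2) (Fin 2) ℝ) i j) :
    eisR n s g' = eisR n s g := by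
  unfold eisR
  rw [Matrix.det_fin_two (g' : Matrix (Fin 2) (Fin 2) ℝ),
    Matrix.det_fin_two (g : Matrix (Fin 2) (Fin 2) ℝ), h 0 0, h 0 1, h 1 0, h 1 1]
  set a := (g : Matrix (Fin 2) (Fin 2) ℝ) 0 0
  set b := (g : Matrix (Fin 2) (Fin 2) ℝ) 0 1
  set c := (g : Matrix (Fin 2) (Fin 2) ℝ) 1 0
  set d := (g : Matrix (Fin 2) (Fin 2) ℝ) 1 1
  have hl2 : lam ^ 2 ≠ 0 := pow_ne_zero 2 hlam.ne'
  have h1 : (lam * a * (lam * d) - lam * b * (lam * c)) / ((lam * c) ^ 2 + (lam * d) ^ 2)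
      = (a * d - b * c) / (c ^ 2 + d ^ 2) := by
    have e1 : lam * a * (lam * d) - lam * b * (lam * c) = lam ^ 2 * (a * d - b * c) := by ring
    have e2 : (lam * c) ^ 2 + (lam * d) ^ 2 = lam ^ 2 * (c ^ 2 + d ^ 2) := by ring
    rw [e1, e2, mul_div_mul_left _ _ hl2]
  have h2 : Real.sqrt ((lam * c) ^ 2 + (lam * d) ^ 2) = lam * Real.sqrt (c ^ 2 + d ^ 2) := by
    have e2 : (lam * c) ^ 2 + (lam * d) ^ 2 = lam ^ 2 * (c ^ 2 + d ^ 2) := by ring
    rw [e2, Real.sqrt_mul (sq_nonneg lam), Real.sqrt_sq hlam.le]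
  have hlc : ((lam : ℝ) : ℂ) ≠ 0 := Complex.ofReal_ne_zero.2 hlam.ne'
  have h3 : ((((lam * d : ℝ) : ℂ) + ((lam * c : ℝ) : ℂ) * Complex.I)
      / ((Real.sqrt ((lam * c) ^ 2 + (lam * d) ^ 2) : ℝ) : ℂ))
      = ((((d : ℝ) : ℂ) + ((c : ℝ) : ℂ) * Complex.I)
        / ((Real.sqrt (c ^ 2 + d ^ 2) : ℝ) : ℂ)) := by
    rw [h2]
    push_cast
    have e3 : ((lam : ℝ) : ℂ) * ((d : ℝ) : ℂ) + ((lam : ℝ) : ℂ) * ((c : ℝ) : ℂ) * Complex.I
        = ((lam : ℝ) : ℂ) * (((d : ℝ) : ℂ) + ((c : ℝ) : ℂ) * Complex.I) := by ring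
    rw [e3, mul_div_mul_left _ _ hlc]
  rw [h1, h3]

/-- `bR ζ t 0 = e^{ζ/2} · bR 0 t 0`, after a rotation on the left. -/
theorem eisR_rotR_mul_bR162 (n : ℤ) (s : ℂ) (θ ζ t : ℝ) :
    eisR n s (rotR θ * bR ζ t 0) = eisR n s (rotR θ * bR 0 t 0) := by
  refine eisR_of_smul162 n s (rotR θ * bR 0 t 0) (rotR θ * bR ζ t 0) (Real.exp (ζ / 2))
    (Real.exp_pos _) (fun i j => ?_)
  have hb : ∀ i j, ((bR ζ t 0 : GL (Fin 2) ℝ) : Matrix (Fin 2) (Fin 2) ℝ) i j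
      = Real.exp (ζ / 2) * ((bR 0 t 0 : GL (Fin 2) ℝ) : Matrix (Fin 2) (Fin 2) ℝ) i j := by
    intro i j
    rw [coe_bR830, coe_bR830]
    have h1 : Real.exp ((ζ + t) / 2) = Real.exp (ζ / 2) * Real.exp ((0 + t) / 2) := by
      rw [← Real.exp_add]; congr 1; ring
    have h2 : Real.exp ((ζ - t) / 2) = Real.exp (ζ / 2) * Real.exp ((0 - t) / 2) := by
      rw [← Real.exp_add]; congr 1; ring
    fin_cases i <;> fin_cases j <;> simp [h1, h2]
  fin_cases i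
  · show ((rotR θ * bR ζ t 0 : GL (Fin 2) ℝ) : Matrix (Fin 2) (Fin 2) ℝ) 0 j
      = _ * ((rotR θ * bR 0 t 0 : GL (Fin 2) ℝ) : Matrix (Fin 2) (Fin 2) ℝ) 0 j
    rw [(rotR_mul_apply162 θ _ j).1, (rotR_mul_apply162 θ _ j).1, hb 0 j, hb 1 j]
    ring
  · show ((rotR θ * bR ζ t 0 : GL (Fin 2) ℝ) : Matrix (Fin 2) (Fin 2) ℝ) 1 j
      = _ * ((rotR θ * bR 0 t 0 : GL (Fin 2) ℝ) : Matrix (Fin 2) (Fin 2) ℝ) 1 j
    rw [(rotR_mul_apply162 θ _ j).2, (rotR_mul_apply162 θ _ j).2, hb 0 j, hb 1 j]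
    ring

/-! ## 5. The Cartan coordinates -/

theorem rhoR_cartan162 (α β ζ t : ℝ) : rhoR (rotR α * bR ζ t 0 * rotR β) = Real.cosh t := by
  rw [rhoR_mul_rotR162, rhoR_rotR_mul162, rhoR_bR162]

theorem holPart_cartan162 (α β ζ t : ℝ) :
    holPart (rotR α * bR ζ t 0 * rotR β)
      = Complex.exp ((α : ℂ) * Complex.I) * ((Real.exp (ζ / 2) * Real.cosh (t / 2) : ℝ) : ℂ)
        * Complex.exp ((β : ℂ) * Complex.I) := by
  rw [holPart_mul_rotR162, holPart_rotR_mul162, holPart_bR162]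

theorem wtPhase_cartan162 (n : ℤ) (α β ζ t : ℝ) :
    wtPhase n (rotR α * bR ζ t 0 * rotR β)
      = Complex.exp ((n : ℂ) * ((α : ℂ) + (β : ℂ)) * Complex.I) := by
  unfold wtPhase
  rw [holPart_cartan162]
  have hpos : 0 < Real.exp (ζ / 2) * Real.cosh (t / 2) :=
    mul_pos (Real.exp_pos _) (Real.cosh_pos _)
  have hnorm : ‖Complex.exp ((α : ℂ) * Complex.I)
      * ((Real.exp (ζ / 2) * Real.cosh (t / 2) : ℝ) : ℂ)
      * Complex.exp ((β : ℂ) * Complex.I)‖ = Real.exp (ζ / 2) * Real.cosh (t / 2) := by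
    rw [norm_mul, norm_mul, Complex.norm_exp_ofReal_mul_I, Complex.norm_exp_ofReal_mul_I,
      Complex.norm_real, Real.norm_of_nonneg hpos.le]
    ring
  rw [hnorm]
  have hne : ((Real.exp (ζ / 2) * Real.cosh (t / 2) : ℝ) : ℂ) ≠ 0 :=
    Complex.ofReal_ne_zero.2 hpos.ne'
  have hq : Complex.exp ((α : ℂ) * Complex.I) * ((Real.exp (ζ / 2) * Real.cosh (t / 2) : ℝ) : ℂ)
      * Complex.exp ((β : ℂ) * Complex.I) / ((Real.exp (ζ / 2) * Real.cosh (t / 2) : ℝ) : ℂ)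
      = Complex.exp (((α : ℂ) + (β : ℂ)) * Complex.I) := by
    rw [add_mul, Complex.exp_add]
    field_simp
  rw [hq, ← Complex.exp_int_mul]
  congr 1
  ring

/-! ## 6. The leaf -/

/-- **T6.29.R3' `SphAvgOfC`**, VERBATIM. -/
theorem sphAvgOfC162 : SphAvgOfC := by
  intro hCartan hAt n hn s y hy
  obtain ⟨ζ, α, β, t, ht, rfl⟩ := hCartan y hy
  -- the periodic integrand at `a_t`
  set F : ℝ → ℂ := fun θ =>
    Complex.exp (-((n : ℂ) * (θ : ℂ) * Complex.I)) * eisR n s (rotR θ * bR 0 t 0) with hF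
  have hper : Function.Periodic F (2 * Real.pi) := by
    intro θ
    simp only [hF]
    rw [rotR_add_two_pi162]
    congr 1
    have : -((n : ℂ) * ((θ + 2 * Real.pi : ℝ) : ℂ) * Complex.I)
        = -((n : ℂ) * (θ : ℂ) * Complex.I) + ((-n : ℤ) : ℂ) * (2 * Real.pi * Complex.I) := by
      push_cast
      ring
    rw [this, Complex.exp_add, Complex.exp_int_mul_two_pi_mul_I, mul_one]
  -- the integrand at `y`
  have hint : ∀ θ : ℝ, Complex.exp (-((n : ℂ) * (θ : ℂ) * Complex.I))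
      * eisR n s (rotR θ * (rotR α * bR ζ t 0 * rotR β))
      = Complex.exp ((n : ℂ) * ((α : ℂ) + (β : ℂ)) * Complex.I) * F (θ + α) := by
    intro θ
    have e1 : rotR θ * (rotR α * bR ζ t 0 * rotR β) = rotR (θ + α) * bR ζ t 0 * rotR β := by
      rw [← rotR_mul_rotR162, mul_assoc, mul_assoc, mul_assoc]
    rw [e1, eisR_mul_rotR162, eisR_rotR_mul_bR162]
    simp only [hF]
    rw [← mul_assoc, ← mul_assoc, ← Complex.exp_add, ← Complex.exp_add]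
    congr 2
    push_cast
    ring
  have h1 : (∫ θ in (0 : ℝ)..(2 * Real.pi), Complex.exp (-((n : ℂ) * (θ : ℂ) * Complex.I))
      * eisR n s (rotR θ * (rotR α * bR ζ t 0 * rotR β)))
      = Complex.exp ((n : ℂ) * ((α : ℂ) + (β : ℂ)) * Complex.I)
        * ∫ θ in (0 : ℝ)..(2 * Real.pi), F θ := by
    simp_rw [hint]
    rw [intervalIntegral.integral_const_mul]
    congr 1
    rw [intervalIntegral.integral_comp_add_right (fun θ => F θ) α]
    have := hper.intervalIntegral_add_eq α 0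
    simp only [zero_add] at this ⊢
    rw [add_comm (2 * Real.pi) α]
    exact this
  rw [h1]
  have h2 := hAt n hn s t ht
  simp only [hF]
  unfold sphFn
  rw [wtPhase_cartan162, rhoR_cartan162, ← h2]
  ring

end Fermat.Agent.LT.T6.H162

end
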